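/-
Program C (S55), package C3 (local fields in the `PadicAlgCl q` model), leaf L3c
`LeafNormCompositum` of helper66's `S55/H66/LocalSpec.lean`:

for `L/F` of degree `n`, every nonzero element of `F` is a norm from the compositum
`L · F_n` to `L` (`F_n` the unramified extension of degree `n` of `F`).

This file proves the leaf from the leaves `LeafUnif`, `LeafUnram`, `LeafUnitNorm` and the
FUNDAMENTAL IDENTITY in the relative form `FundIdStatement`:
`resCard L ^ a = resCard F ^ [L : F]`, where `a` is the relative ramification index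
(`nrm π_F = nrm π_L ^ a`).  The fundamental identity itself is proved in `FundId.lean`.

Proof.  By the fundamental identity the two sets of roots of unity `μ_(Q_L^a - 1)` and
`μ_(Q_F^n - 1)` coincide, so `L · F_n = L(μ_(Q_F^n - 1))` is the unramified extension of
degree `a` of `L`.  For `x ∈ Fˣ`: `nrm x = nrm π_L ^ (a k)`, so `x = π_L^(a k) · u` with `u` a
unit of `L`; `π_L^(a k)` is the norm of `π_L^k` (degree `a`) and `u` is a norm by
`LeafUnitNorm`.
-/
import Fermat.Agent.S55.H66.LocalSpec

set_option autoImplicit false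

noncomputable section

namespace Fermat.Agent.S55.H39

open IntermediateField Fermat.Agent.S55.H66

variable (q : ℕ) [Fact q.Prime]

/-! ### Elementary facts about `nrm` -/

section Nrm

variable {q}
variable {F : Type} [Field F] [Algebra F (PadicAlgCl q)]

theorem nrm_mul (x y : F) : nrm q (x * y) = nrm q x * nrm q y := by
  simp [nrm]

theorem nrm_inv (x : F) : nrm q x⁻¹ = (nrm q x)⁻¹ := by
  simp [nrm]

theorem nrm_one : nrm q (1 : F) = 1 := by
  simp [nrm]

theorem nrm_pow (x : F) (n : ℕ) : nrm q (x ^ n) = nrm q x ^ n := by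
  simp [nrm]

theorem nrm_zpow (x : F) (n : ℤ) : nrm q (x ^ n) = nrm q x ^ n := by
  simp [nrm]

theorem nrm_pos {x : F} (hx : x ≠ 0) : 0 < nrm q x := by
  rw [nrm, norm_pos_iff]
  exact (map_ne_zero_iff _ (algebraMap F (PadicAlgCl q)).injective).mpr hx

theorem nrm_algebraMap (L : IntermediateField F (PadicAlgCl q)) (x : F) :
    nrm q (algebraMap F L x) = nrm q x := rfl

end Nrm

/-! ### The fundamental identity as a `Prop` -/

/-- **Fundamental identity**, relative form: if `π_F`, `π_L` are uniformisers of `F ⊆ L`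
(`[L : F] = n`), then `nrm π_F = nrm π_L ^ a` for an `a ≥ 1` with
`resCard L ^ a = resCard F ^ n` (i.e. `e f = n`). -/
def FundIdStatement : Prop :=
  ∀ (F : Type) [Field F] [Algebra ℚ_[q] F] [Algebra F (PadicAlgCl q)]
    [IsScalarTower ℚ_[q] F (PadicAlgCl q)] [FiniteDimensional ℚ_[q] F]
    (L : IntermediateField F (PadicAlgCl q)) [FiniteDimensional F L] (πF : F) (πL : L),
    πF ≠ 0 → nrm q πF < 1 → (∀ x : F, x ≠ 0 → ∃ n : ℤ, nrm q x = nrm q πF ^ n) →
    πL ≠ 0 → nrm q πL < 1 → (∀ x : L, x ≠ 0 → ∃ n : ℤ, nrm q x = nrm q πL ^ n) →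
    ∃ a : ℕ, 0 < a ∧ nrm q πF = nrm q πL ^ a ∧
      resCard q L ^ a = resCard q F ^ Module.finrank F L

/-! ### Norms from an unramified extension -/

variable {q}

/-- In the unramified extension of degree `a`, every element whose norm is an `a`-th power of
the norm of some `π ≠ 0` is a norm. -/
theorem exists_norm_eq_of_unram (hUnram : LeafUnram q) (hUN : LeafUnitNorm q)
    (F : Type) [Field F] [Algebra ℚ_[q] F] [Algebra F (PadicAlgCl q)]
    [IsScalarTower ℚ_[q] F (PadicAlgCl q)] [FiniteDimensional ℚ_[q] F]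
    (a : ℕ) (ha : 0 < a) (π x : F) (hπ : π ≠ 0) (k : ℤ)
    (hx : nrm q x = nrm q π ^ ((a : ℤ) * k)) :
    ∃ y : unramExt q F a, Algebra.norm F y = x := by
  obtain ⟨hfin, hdeg, -, -, hunr⟩ := hUnram F a ha
  haveI := hfin
  have hπpos : 0 < nrm q π := nrm_pos hπ
  have hu : nrm q (x * (π ^ ((a : ℤ) * k))⁻¹) = 1 := by
    rw [nrm_mul, nrm_inv, nrm_zpow, hx]
    exact mul_inv_cancel₀ (zpow_ne_zero _ hπpos.ne')
  obtain ⟨v, -, hv⟩ := hUN F (unramExt q F a) hunr _ hu
  refine ⟨algebraMap F (unramExt q F a) (π ^ k) * v, ?_⟩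
  rw [map_mul, Algebra.norm_algebraMap, hdeg, hv]
  have h1 : (π ^ k) ^ a = π ^ ((a : ℤ) * k) := by
    rw [← zpow_natCast, ← zpow_mul, mul_comm]
  rw [h1, mul_comm, mul_assoc, inv_mul_cancel₀ (zpow_ne_zero _ hπ), mul_one]

/-- Transport of the previous statement along an equality of intermediate fields. -/
theorem exists_norm_eq_of_eq_unramExt (hUnram : LeafUnram q) (hUN : LeafUnitNorm q)
    (F : Type) [Field F] [Algebra ℚ_[q] F] [Algebra F (PadicAlgCl q)]
    [IsScalarTower ℚ_[q] F (PadicAlgCl q)] [FiniteDimensional ℚ_[q] F]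
    (a : ℕ) (ha : 0 < a) (π x : F) (hπ : π ≠ 0) (k : ℤ)
    (hx : nrm q x = nrm q π ^ ((a : ℤ) * k))
    (E : IntermediateField F (PadicAlgCl q)) (hE : E = unramExt q F a) :
    ∃ y : E, Algebra.norm F y = x := by
  subst hE
  exact exists_norm_eq_of_unram hUnram hUN F a ha π x hπ k hx

/-- The compositum `L · F_n`, viewed over `L`, is generated over `L` by the roots of unity of
order dividing `resCard F ^ n - 1`. -/
theorem extendScalars_sup_unramExt
    (F : Type) [Field F] [Algebra F (PadicAlgCl q)]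
    (L : IntermediateField F (PadicAlgCl q)) (n : ℕ) :
    extendScalars (le_sup_left : L ≤ L ⊔ unramExt q F n) =
      IntermediateField.adjoin L {ζ : PadicAlgCl q | ζ ^ (resCard q F ^ n - 1) = 1} := by
  apply IntermediateField.restrictScalars_injective F
  rw [extendScalars_restrictScalars, IntermediateField.restrictScalars_adjoin_eq_sup]
  rfl

/-- **Leaf L3c** (`LeafNormCompositum`) from `LeafUnif`, `LeafUnram`, `LeafUnitNorm` and the
fundamental identity. -/
theorem leafNormCompositum_of (hUnif : LeafUnif q) (hUnram : LeafUnram q)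
    (hUN : LeafUnitNorm q) (hEF : FundIdStatement q) : LeafNormCompositum q := by
  intro F _ _ _ _ _ L _ x hx
  obtain ⟨πF, hπF0, hπF1, hπFg⟩ := hUnif F
  obtain ⟨πL, hπL0, hπL1, hπLg⟩ := hUnif L
  obtain ⟨a, ha, hnorm, hcard⟩ := hEF F L πF πL hπF0 hπF1 hπFg hπL0 hπL1 hπLg
  obtain ⟨k, hk⟩ := hπFg x hx
  have hxL : nrm q (algebraMap F L x) = nrm q πL ^ ((a : ℤ) * k) := by
    rw [nrm_algebraMap, hk, hnorm, zpow_mul, zpow_natCast]
  have hE : extendScalars (le_sup_left : L ≤ L ⊔ unramExt q F (Module.finrank F L)) =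
      unramExt q L a := by
    rw [extendScalars_sup_unramExt, unramExt, hcard]
  exact exists_norm_eq_of_eq_unramExt hUnram hUN L a ha πL (algebraMap F L x) hπL0 k hxL _ hE

end Fermat.Agent.S55.H39
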