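/-
Program C (S55), package C3 (local fields in the `PadicAlgCl q` model):
the FUNDAMENTAL IDENTITY `e f = n` in the form consumed by `NormCompositum.lean`.

* `fundId_abs` : for an embedded local field `F` with uniformiser `π`, there is `e ≥ 1` with
  `nrm π ^ e = q⁻¹` and `resCard q F ^ e = q ^ [F : ℚ_q]`.
* `fundIdStatement` : the relative form `FundIdStatement q`.
* `leafNormCompositum` : leaf L3c from the leaves `LeafUnif`, `LeafUnram`, `LeafUnitNorm`.

Proof of the absolute identity.  Let `B = {x : F | nrm x ≤ 1}` (an additive subgroup of `F`).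
`B` is the range of the valuation ring `intRing q F` and also the range of the integral closure
`C` of `ℤ_q` in `F`.  The index `(B : π B)` is the cardinality `Q` of the residue field, so
`(B : π^e B) = Q^e`; the index `(B : q B)` is `#(C/qC) = q^n` because `C` is a free `ℤ_q`-module
of rank `n` (Mathlib: `IsIntegralClosure.rank`, `IsLocalRing.finrank_quotient_map`); and
`q B = π^e B` because `nrm q = nrm π ^ e`.
-/
import Fermat.Agent.S55.H39.NormCompositum

set_option autoImplicit false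

noncomputable section

namespace Fermat.Agent.S55.H39

open IntermediateField Fermat.Agent.S55.H66 IsLocalRing

/-! ### Generic index lemmas -/

section Generic

variable {F : Type*} [Field F]

/-- The additive subgroup `x • H` of a field. -/
def sc (x : F) (H : AddSubgroup F) : AddSubgroup F := H.map (AddMonoidHom.mulLeft x)

theorem mem_sc {x : F} {H : AddSubgroup F} {y : F} : y ∈ sc x H ↔ ∃ h ∈ H, x * h = y := by
  simp [sc, AddSubgroup.mem_map]

theorem sc_one (H : AddSubgroup F) : sc 1 H = H := by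
  ext y
  simp [mem_sc]

theorem sc_mul (x y : F) (H : AddSubgroup F) : sc (x * y) H = sc x (sc y H) := by
  ext z
  simp only [mem_sc]
  constructor
  · rintro ⟨h, hh, rfl⟩
    exact ⟨y * h, ⟨h, hh, rfl⟩, by ring⟩
  · rintro ⟨_, ⟨h, hh, rfl⟩, rfl⟩
    exact ⟨h, hh, by ring⟩

theorem sc_mono (x : F) {H K : AddSubgroup F} (h : H ≤ K) : sc x H ≤ sc x K :=
  AddSubgroup.map_mono h

theorem relIndex_sc {x : F} (hx : x ≠ 0) (H K : AddSubgroup F) :
    (sc x H).relIndex (sc x K) = H.relIndex K :=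
  AddSubgroup.relIndex_map_map_of_injective H K (mul_right_injective₀ hx)

theorem sc_pow_le {π : F} {B : AddSubgroup F} (hB : sc π B ≤ B) (e : ℕ) : sc (π ^ e) B ≤ B := by
  induction e with
  | zero => rw [pow_zero, sc_one]
  | succ e ih =>
    rw [pow_succ, sc_mul]
    exact (sc_mono _ hB).trans ih

theorem relIndex_sc_pow {π : F} (hπ : π ≠ 0) {B : AddSubgroup F} (hB : sc π B ≤ B) (e : ℕ) :
    (sc (π ^ e) B).relIndex B = (sc π B).relIndex B ^ e := by
  induction e with
  | zero => rw [pow_zero, sc_one, AddSubgroup.relIndex_self, pow_zero]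
  | succ e ih =>
    have h1 : sc (π ^ e) (sc π B) ≤ sc (π ^ e) B := sc_mono _ hB
    have h2 : sc (π ^ e) B ≤ B := sc_pow_le hB e
    rw [pow_succ, sc_mul, ← AddSubgroup.relIndex_mul_relIndex _ _ _ h1 h2,
      relIndex_sc (pow_ne_zero e hπ), ih, pow_succ, mul_comm]

/-- The cardinality of a quotient ring of a subring-like `R ↪ F`, as a relative index in `F`. -/
theorem card_quot_eq_relIndex {R : Type*} [CommRing R] (ι : R →+* F)
    (hι : Function.Injective ι) (I : Ideal R) :
    Nat.card (R ⧸ I) =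
      (I.toAddSubgroup.map ι.toAddMonoidHom).relIndex ι.toAddMonoidHom.range := by
  have h := AddSubgroup.relIndex_map_map_of_injective (f := ι.toAddMonoidHom)
    I.toAddSubgroup ⊤ hι
  rw [AddSubgroup.relIndex_top_right, ← AddMonoidHom.range_eq_map] at h
  rw [h]
  rfl

end Generic

/-! ### The unit ball of an embedded local field -/

variable (q : ℕ) [Fact q.Prime]

section Ball

variable (F : Type) [Field F] [Algebra F (PadicAlgCl q)]

theorem nrm_zero : nrm q (0 : F) = 0 := by simp [nrm]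

theorem nrm_neg (x : F) : nrm q (-x) = nrm q x := by simp [nrm]

theorem nrm_add_le (x y : F) : nrm q (x + y) ≤ max (nrm q x) (nrm q y) := by
  simp only [nrm, map_add]
  exact IsUltrametricDist.norm_add_le_max _ _

/-- The unit ball `{x | nrm x ≤ 1}` as an additive subgroup. -/
def ball : AddSubgroup F where
  carrier := {x | nrm q x ≤ 1}
  zero_mem' := by
    show nrm q (0 : F) ≤ 1
    rw [nrm_zero]; exact zero_le_one
  add_mem' := by
    intro a b ha hb
    exact (nrm_add_le q F a b).trans (max_le ha hb)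
  neg_mem' := by
    intro a ha
    show nrm q (-a) ≤ 1
    rw [nrm_neg]; exact ha

variable {F}

theorem mem_ball {x : F} : x ∈ ball q F ↔ nrm q x ≤ 1 := Iff.rfl

theorem mem_sc_ball {y : F} (hy : y ≠ 0) {x : F} : x ∈ sc y (ball q F) ↔ nrm q x ≤ nrm q y := by
  have hypos : 0 < nrm q y := nrm_pos hy
  rw [mem_sc]
  constructor
  · rintro ⟨b, hb, rfl⟩
    rw [nrm_mul]
    exact mul_le_of_le_one_right hypos.le hb
  · intro h
    refine ⟨y⁻¹ * x, ?_, by rw [mul_inv_cancel_left₀ hy]⟩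
    rw [mem_ball, nrm_mul, nrm_inv]
    rw [inv_mul_le_iff₀ hypos, mul_one]
    exact h

theorem mem_intRing_iff {x : F} : x ∈ intRing q F ↔ nrm q x ≤ 1 := by
  show Valued.v (algebraMap F (PadicAlgCl q) x) ≤ 1 ↔ ‖algebraMap F (PadicAlgCl q) x‖ ≤ 1
  rw [PadicAlgCl.valuation_def, ← NNReal.coe_le_coe]
  rfl

theorem range_intRing :
    (intRing q F).subtype.toAddMonoidHom.range = ball q F := by
  ext x
  rw [AddMonoidHom.mem_range, mem_ball, ← mem_intRing_iff]
  constructor
  · rintro ⟨y, rfl⟩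
    exact y.2
  · intro h
    exact ⟨⟨x, h⟩, rfl⟩

theorem isUnit_intRing_iff (r : intRing q F) : IsUnit r ↔ nrm q (r : F) = 1 := by
  have hr : nrm q (r : F) ≤ 1 := (mem_intRing_iff q).mp r.2
  constructor
  · rintro ⟨u, rfl⟩
    have hmul : ((u : intRing q F) : F) * (((u⁻¹ : (intRing q F)ˣ) : intRing q F) : F) = 1 :=
      congrArg Subtype.val u.mul_inv
    have h1 : nrm q ((u : intRing q F) : F) *
        nrm q (((u⁻¹ : (intRing q F)ˣ) : intRing q F) : F) = 1 := by
      rw [← nrm_mul, hmul, nrm_one]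
    have h2 : nrm q (((u⁻¹ : (intRing q F)ˣ) : intRing q F) : F) ≤ 1 :=
      (mem_intRing_iff q).mp (Subtype.property _)
    have h3 : 0 ≤ nrm q ((u : intRing q F) : F) := norm_nonneg _
    nlinarith
  · intro h
    have h0 : (r : F) ≠ 0 := by
      intro h0
      rw [h0, nrm_zero] at h
      exact zero_ne_one h
    have hinv : (r : F)⁻¹ ∈ intRing q F := by
      rw [mem_intRing_iff, nrm_inv, h, inv_one]
    refine isUnit_iff_exists_inv.mpr ⟨⟨(r : F)⁻¹, hinv⟩, ?_⟩
    apply Subtype.ext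
    show (r : F) * (r : F)⁻¹ = 1
    exact mul_inv_cancel₀ h0

/-- The maximal ideal of the valuation ring is `π B` for a uniformiser `π`. -/
theorem map_maximalIdeal_intRing {π : F} (hπ0 : π ≠ 0) (hπ1 : nrm q π < 1)
    (hπg : ∀ x : F, x ≠ 0 → ∃ n : ℤ, nrm q x = nrm q π ^ n) :
    (maximalIdeal (intRing q F)).toAddSubgroup.map (intRing q F).subtype.toAddMonoidHom =
      sc π (ball q F) := by
  have hπpos : 0 < nrm q π := nrm_pos hπ0
  ext y
  rw [mem_sc_ball q hπ0, AddSubgroup.mem_map]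
  constructor
  · rintro ⟨r, hr, rfl⟩
    have hr' : ¬ IsUnit r := hr
    rw [isUnit_intRing_iff] at hr'
    have hr1 : nrm q (r : F) ≤ 1 := (mem_intRing_iff q).mp r.2
    have hlt : nrm q (r : F) < 1 := lt_of_le_of_ne hr1 hr'
    show nrm q (r : F) ≤ nrm q π
    rcases eq_or_ne (r : F) 0 with h0 | h0
    · rw [h0, nrm_zero]; exact hπpos.le
    · obtain ⟨n, hn⟩ := hπg _ h0
      rw [hn] at hlt ⊢
      have hn1 : 1 ≤ n := by
        by_contra hcon
        have hn0 : n ≤ 0 := by omega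
        have : 1 ≤ nrm q π ^ n := by
          rw [← zpow_zero (nrm q π)]
          exact zpow_le_zpow_right_of_le_one₀ hπpos hπ1.le hn0
        exact absurd hlt (not_lt.mpr this)
      calc nrm q π ^ n ≤ nrm q π ^ (1 : ℤ) :=
            zpow_le_zpow_right_of_le_one₀ hπpos hπ1.le hn1
        _ = nrm q π := zpow_one _
  · intro h
    have hy1 : nrm q y < 1 := lt_of_le_of_lt h hπ1
    refine ⟨⟨y, (mem_intRing_iff q).mpr hy1.le⟩, ?_, rfl⟩
    show ¬ IsUnit _
    rw [isUnit_intRing_iff]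
    exact hy1.ne

/-- The cardinality of the residue field is the index `(B : π B)`. -/
theorem resCard_eq_relIndex {π : F} (hπ0 : π ≠ 0) (hπ1 : nrm q π < 1)
    (hπg : ∀ x : F, x ≠ 0 → ∃ n : ℤ, nrm q x = nrm q π ^ n) :
    resCard q F = (sc π (ball q F)).relIndex (ball q F) := by
  have h := card_quot_eq_relIndex (intRing q F).subtype Subtype.val_injective
    (maximalIdeal (intRing q F))
  rw [map_maximalIdeal_intRing q hπ0 hπ1 hπg, range_intRing] at h
  exact h

end Ball

/-! ### The integral closure of `ℤ_q` and the index `(B : q B)` -/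

section IntClosure

variable (F : Type) [Field F] [Algebra ℚ_[q] F] [Algebra F (PadicAlgCl q)]
  [IsScalarTower ℚ_[q] F (PadicAlgCl q)] [FiniteDimensional ℚ_[q] F]

omit [FiniteDimensional ℚ_[q] F] in
theorem nrm_eq_spectralValue (x : F) : nrm q x = spectralValue (minpoly ℚ_[q] x) := by
  show ‖algebraMap F (PadicAlgCl q) x‖ = _
  rw [← PadicAlgCl.spectralNorm_eq, spectralNorm,
    minpoly.algebraMap_eq (algebraMap F (PadicAlgCl q)).injective]

theorem nrm_le_one_iff_coeff (x : F) :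
    nrm q x ≤ 1 ↔ ∀ n : ℕ, ‖(minpoly ℚ_[q] x).coeff n‖ ≤ 1 := by
  rw [nrm_eq_spectralValue]
  exact spectralValue_le_one_iff (minpoly.monic (Algebra.IsIntegral.isIntegral x))

/-- The `ℤ_q`-algebra structure of an embedded local field (not an instance). -/
@[reducible] def zqAlgebra : Algebra ℤ_[q] F :=
  ((algebraMap ℚ_[q] F).comp (algebraMap ℤ_[q] ℚ_[q])).toAlgebra

theorem isIntegral_iff_nrm_le_one (x : F) :
    letI := zqAlgebra q F
    IsIntegral ℤ_[q] x ↔ nrm q x ≤ 1 := by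
  letI := zqAlgebra q F
  haveI : IsScalarTower ℤ_[q] ℚ_[q] F := IsScalarTower.of_algebraMap_eq (fun _ => rfl)
  rw [nrm_le_one_iff_coeff]
  constructor
  · intro hx n
    rw [minpoly.isIntegrallyClosed_eq_field_fractions' ℚ_[q] hx, Polynomial.coeff_map]
    exact PadicInt.norm_le_one _
  · intro h
    have hl : minpoly ℚ_[q] x ∈ Polynomial.lifts (algebraMap ℤ_[q] ℚ_[q]) := by
      rw [Polynomial.lifts_iff_coeff_lifts]
      intro n
      exact ⟨⟨_, h n⟩, rfl⟩
    obtain ⟨P, hP, -, hmonic⟩ := Polynomial.lifts_and_natDegree_eq_and_monic hl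
      (minpoly.monic (Algebra.IsIntegral.isIntegral x))
    refine ⟨P, hmonic, ?_⟩
    have h2 : Polynomial.eval₂ (algebraMap ℤ_[q] F) x P =
        Polynomial.eval₂ (algebraMap ℚ_[q] F) x (P.map (algebraMap ℤ_[q] ℚ_[q])) := by
      rw [Polynomial.eval₂_map]
      rfl
    rw [h2, hP]
    exact minpoly.aeval ℚ_[q] x

omit [Algebra ℚ_[q] F] [IsScalarTower ℚ_[q] F (PadicAlgCl q)] [FiniteDimensional ℚ_[q] F] in
theorem nrm_natCast_q : nrm q ((q : ℕ) : F) = (q : ℝ)⁻¹ := by
  show ‖algebraMap F (PadicAlgCl q) ((q : ℕ) : F)‖ = _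
  rw [map_natCast, ← map_natCast (algebraMap ℚ_[q] (PadicAlgCl q)) q]
  exact (PadicAlgCl.norm_extends q (q : ℚ_[q])).trans Padic.norm_p

/-- The index `(B : q B)` is `q ^ [F : ℚ_q]`. -/
theorem relIndex_q_ball :
    (sc ((q : ℕ) : F) (ball q F)).relIndex (ball q F) = q ^ Module.finrank ℚ_[q] F := by
  letI := zqAlgebra q F
  haveI : IsScalarTower ℤ_[q] ℚ_[q] F := IsScalarTower.of_algebraMap_eq (fun _ => rfl)
  haveI : Module.IsTorsionFree ℤ_[q] F := Module.isTorsionFree_iff_algebraMap_injective.mpr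
    ((algebraMap ℚ_[q] F).injective.comp (IsFractionRing.injective ℤ_[q] ℚ_[q]))
  haveI : Module.Finite ℤ_[q] (integralClosure ℤ_[q] F) :=
    IsIntegralClosure.finite ℤ_[q] ℚ_[q] F (integralClosure ℤ_[q] F)
  haveI : Module.Free ℤ_[q] (integralClosure ℤ_[q] F) :=
    IsIntegralClosure.module_free ℤ_[q] ℚ_[q] F (integralClosure ℤ_[q] F)
  have hrank : Module.finrank ℤ_[q] (integralClosure ℤ_[q] F) = Module.finrank ℚ_[q] F :=
    IsIntegralClosure.rank ℤ_[q] ℚ_[q] F (integralClosure ℤ_[q] F)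
  have hrange : ((integralClosure ℤ_[q] F).val : integralClosure ℤ_[q] F →+* F).toAddMonoidHom.range
      = ball q F := by
    ext x
    rw [AddMonoidHom.mem_range, mem_ball, ← isIntegral_iff_nrm_le_one]
    constructor
    · rintro ⟨y, rfl⟩
      exact y.2
    · intro h
      exact ⟨⟨x, h⟩, rfl⟩
  have hIspan : Ideal.map (algebraMap ℤ_[q] (integralClosure ℤ_[q] F)) (maximalIdeal ℤ_[q]) =
      Ideal.span {((q : ℕ) : integralClosure ℤ_[q] F)} := by
    rw [PadicInt.maximalIdeal_eq_span_p, Ideal.map_span, Set.image_singleton, map_natCast]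
  have hmap : (Ideal.map (algebraMap ℤ_[q] (integralClosure ℤ_[q] F))
      (maximalIdeal ℤ_[q])).toAddSubgroup.map
        ((integralClosure ℤ_[q] F).val : integralClosure ℤ_[q] F →+* F).toAddMonoidHom =
      sc ((q : ℕ) : F) (ball q F) := by
    ext y
    rw [mem_sc, AddSubgroup.mem_map, ← hrange, hIspan]
    constructor
    · rintro ⟨r, hr, rfl⟩
      obtain ⟨c, rfl⟩ := Ideal.mem_span_singleton'.mp hr
      refine ⟨(c : F), ⟨c, rfl⟩, ?_⟩
      show ((q : ℕ) : F) * (c : F) = ((c * ((q : ℕ) : integralClosure ℤ_[q] F) :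
        integralClosure ℤ_[q] F) : F)
      push_cast
      ring
    · rintro ⟨b, ⟨c, rfl⟩, rfl⟩
      refine ⟨c * ((q : ℕ) : integralClosure ℤ_[q] F),
        Ideal.mem_span_singleton'.mpr ⟨c, rfl⟩, ?_⟩
      show ((c * ((q : ℕ) : integralClosure ℤ_[q] F) : integralClosure ℤ_[q] F) : F) =
        ((q : ℕ) : F) * (c : F)
      push_cast
      ring
  have hcard := card_quot_eq_relIndex
    ((integralClosure ℤ_[q] F).val : integralClosure ℤ_[q] F →+* F) Subtype.val_injective
    (Ideal.map (algebraMap ℤ_[q] (integralClosure ℤ_[q] F)) (maximalIdeal ℤ_[q]))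
  rw [hmap, hrange] at hcard
  rw [← hcard]
  letI : Field (ℤ_[q] ⧸ maximalIdeal ℤ_[q]) := Ideal.Quotient.field _
  haveI : Module.Finite (ℤ_[q] ⧸ maximalIdeal ℤ_[q])
      (integralClosure ℤ_[q] F ⧸ Ideal.map (algebraMap ℤ_[q] (integralClosure ℤ_[q] F))
        (maximalIdeal ℤ_[q])) :=
    Module.Finite.of_restrictScalars_finite ℤ_[q] _ _
  rw [Module.natCard_eq_pow_finrank (K := ℤ_[q] ⧸ maximalIdeal ℤ_[q]),
    IsLocalRing.finrank_quotient_map, hrank]
  congr 1
  exact (Nat.card_congr (PadicInt.residueField (p := q)).toEquiv).trans (Nat.card_zmod q)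

end IntClosure

/-! ### The fundamental identity -/

section Assembly

variable {q}

theorem one_le_of_zpow_lt_one {r : ℝ} (hr0 : 0 < r) (hr1 : r < 1) {m : ℤ} (h : r ^ m < 1) :
    1 ≤ m := by
  by_contra hcon
  have hm0 : m ≤ 0 := by omega
  have h1 : 1 ≤ r ^ m := by
    rw [← zpow_zero r]
    exact zpow_le_zpow_right_of_le_one₀ hr0 hr1.le hm0
  exact absurd h (not_lt.mpr h1)

/-- **Fundamental identity, absolute form**: `Q ^ e = q ^ [F : ℚ_q]`, where `Q` is the
cardinality of the residue field and `e` the absolute ramification index. -/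
theorem fundId_abs {F : Type} [Field F] [Algebra ℚ_[q] F] [Algebra F (PadicAlgCl q)]
    [IsScalarTower ℚ_[q] F (PadicAlgCl q)] [FiniteDimensional ℚ_[q] F]
    {π : F} (hπ0 : π ≠ 0) (hπ1 : nrm q π < 1)
    (hπg : ∀ x : F, x ≠ 0 → ∃ n : ℤ, nrm q x = nrm q π ^ n) :
    ∃ e : ℕ, 0 < e ∧ nrm q π ^ e = (q : ℝ)⁻¹ ∧
      resCard q F ^ e = q ^ Module.finrank ℚ_[q] F := by
  have hπpos : 0 < nrm q π := nrm_pos hπ0
  have hqpos : (0 : ℝ) < q := by exact_mod_cast (Fact.out : q.Prime).pos
  have hq0 : ((q : ℕ) : F) ≠ 0 := by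
    intro h
    have h2 := nrm_natCast_q q F
    rw [h, nrm_zero] at h2
    exact (inv_pos.mpr hqpos).ne h2
  obtain ⟨m, hm⟩ := hπg _ hq0
  rw [nrm_natCast_q] at hm
  have hqlt : (q : ℝ)⁻¹ < 1 :=
    inv_lt_one_of_one_lt₀ (by exact_mod_cast (Fact.out : q.Prime).one_lt)
  have hm1 : 1 ≤ m := one_le_of_zpow_lt_one hπpos hπ1 (hm ▸ hqlt)
  obtain ⟨e, rfl⟩ : ∃ e : ℕ, m = e := ⟨m.toNat, (Int.toNat_of_nonneg (by omega)).symm⟩
  rw [zpow_natCast] at hm
  refine ⟨e, by omega, hm.symm, ?_⟩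
  have hB : sc π (ball q F) ≤ ball q F := by
    intro x hx
    rw [mem_sc_ball q hπ0] at hx
    exact hx.trans hπ1.le
  rw [resCard_eq_relIndex q hπ0 hπ1 hπg, ← relIndex_sc_pow hπ0 hB e, ← relIndex_q_ball q F]
  congr 1
  ext x
  rw [mem_sc_ball q (pow_ne_zero e hπ0), mem_sc_ball q hq0, nrm_pow, nrm_natCast_q, hm]

/-- **Fundamental identity, relative form** (`e f = n`). -/
theorem fundIdStatement : FundIdStatement q := by
  intro F _ _ _ _ _ L _ πF πL hF0 hF1 hFg hL0 hL1 hLg
  obtain ⟨eF, heF, hnF, hcF⟩ := fundId_abs hF0 hF1 hFg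
  obtain ⟨eL, heL, hnL, hcL⟩ := fundId_abs (F := L) hL0 hL1 hLg
  have hLpos : 0 < nrm q πL := nrm_pos hL0
  have hF0' : algebraMap F L πF ≠ 0 :=
    (map_ne_zero_iff _ (algebraMap F L).injective).mpr hF0
  obtain ⟨j, hj⟩ := hLg _ hF0'
  rw [nrm_algebraMap] at hj
  have hj1 : 1 ≤ j := one_le_of_zpow_lt_one hLpos hL1 (hj ▸ hF1)
  obtain ⟨a, rfl⟩ : ∃ a : ℕ, j = a := ⟨j.toNat, (Int.toNat_of_nonneg (by omega)).symm⟩
  rw [zpow_natCast] at hj
  refine ⟨a, by omega, hj, ?_⟩
  have hexp : a * eF = eL := by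
    have h1 : nrm q πL ^ (a * eF) = nrm q πL ^ eL := by
      rw [pow_mul, ← hj, hnF, hnL]
    exact pow_right_injective₀ hLpos hL1.ne h1
  have hdeg : Module.finrank ℚ_[q] L = Module.finrank ℚ_[q] F * Module.finrank F L :=
    (Module.finrank_mul_finrank ℚ_[q] F L).symm
  have h2 : (resCard q L ^ a) ^ eF = (resCard q F ^ Module.finrank F L) ^ eF := by
    calc (resCard q L ^ a) ^ eF = resCard q L ^ (a * eF) := (pow_mul _ _ _).symm
      _ = q ^ (Module.finrank ℚ_[q] F * Module.finrank F L) := by rw [hexp, hcL, hdeg]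
      _ = (q ^ Module.finrank ℚ_[q] F) ^ Module.finrank F L := pow_mul _ _ _
      _ = (resCard q F ^ eF) ^ Module.finrank F L := by rw [hcF]
      _ = (resCard q F ^ Module.finrank F L) ^ eF := by
        rw [← pow_mul, ← pow_mul, mul_comm]
  exact Nat.pow_left_injective (by omega : eF ≠ 0) h2

/-- **Leaf L3c** (`LeafNormCompositum`) of helper66's `LocalSpec.lean`, from the leaves
`LeafUnif`, `LeafUnram`, `LeafUnitNorm`. -/
theorem leafNormCompositum (hUnif : LeafUnif q) (hUnram : LeafUnram q)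
    (hUN : LeafUnitNorm q) : LeafNormCompositum q :=
  leafNormCompositum_of hUnif hUnram hUN fundIdStatement

end Assembly

end Fermat.Agent.S55.H39
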