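import Mathlib
import Fermat.Agent.S55.H88.SemiLocalSpec

/-!
Program C (S55), package C5, leaf (D4) (helper39): a class of `H²(Gal(K/k), J_K)` all of whose
local components vanish is zero — from (D1) in degree two, (D2) and (D3).

* `H2π_eq_zero_iff_isMulCoboundary₂`, `isMulCoboundary₂_of_isZero`: vanishing of `H²` classes of
  a multiplicative module in cocycle language;
* `ideleDetectStatement_of`: the leaf (D4).
-/

set_option autoImplicit false

open CategoryTheory groupCohomology

noncomputable section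

namespace Fermat.Agent.S55.H39

/-- The class of a 2-cocycle of a multiplicative module vanishes iff the cocycle is a
multiplicative coboundary. -/
theorem H2π_eq_zero_iff_isMulCoboundary₂ {G M : Type} [Group G] [CommGroup M]
    [MulDistribMulAction G M] (x : cocycles₂ (Rep.ofMulDistribMulAction G M)) :
    H2π (Rep.ofMulDistribMulAction G M) x = 0 ↔
      IsMulCoboundary₂ (M := M) (fun p : G × G => Additive.toMul (x.1 p)) := by
  rw [H2π_eq_zero_iff]
  constructor
  · intro h
    exact isMulCoboundary₂_of_mem_coboundaries₂ _ h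
  · intro h
    exact (coboundariesOfIsMulCoboundary₂ h).2

/-- If `H²` of a multiplicative module vanishes, every multiplicative 2-cocycle is a
coboundary. -/
theorem isMulCoboundary₂_of_isZero {G M : Type} [Group G] [CommGroup M]
    [MulDistribMulAction G M]
    (h : Limits.IsZero (groupCohomology (Rep.ofMulDistribMulAction G M) 2))
    (f : G × G → M) (hf : IsMulCocycle₂ f) : IsMulCoboundary₂ f := by
  have hs : Subsingleton (groupCohomology (Rep.ofMulDistribMulAction G M) 2) :=
    ModuleCat.subsingleton_of_isZero h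
  have h0 : H2π (Rep.ofMulDistribMulAction G M) (cocyclesOfIsMulCocycle₂ hf) = 0 :=
    Subsingleton.elim _ _
  exact (H2π_eq_zero_iff_isMulCoboundary₂ _).1 h0

section Assembly

attribute [local instance] H88.factOfPrimes

variable (k K : Type) [Field k] [Field K] [Algebra k K]

/-- The component at `q` of the class of an idele 2-cocycle. -/
theorem map_ideleProj_H2π (q : Nat.Primes) (c : cocycles₂ (H88.ideleRep k K)) :
    (groupCohomology.map (MonoidHom.id (K ≃ₐ[k] K)) (H88.ideleProj k K q) 2).hom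
        (H2π (H88.ideleRep k K) c)
      = H2π (H88.semiLocalRep (q : ℕ) k K)
          (mapCocycles₂ (MonoidHom.id (K ≃ₐ[k] K)) (H88.ideleProj k K q) c) :=
  H2π_comp_map_apply (A := H88.ideleRep k K) (B := H88.semiLocalRep (q : ℕ) k K)
    (MonoidHom.id (K ≃ₐ[k] K)) (H88.ideleProj k K q) c

theorem toMul_mapCocycles₂_ideleProj (q : Nat.Primes) (c : cocycles₂ (H88.ideleRep k K))
    (p : (K ≃ₐ[k] K) × (K ≃ₐ[k] K)) :
    Additive.toMul ((mapCocycles₂ (MonoidHom.id (K ≃ₐ[k] K)) (H88.ideleProj k K q) c).1 p)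
      = H88.ideleComponent K q (Additive.toMul (c.1 p)) := by
  have h := congrFun (coe_mapCocycles₂ (MonoidHom.id (K ≃ₐ[k] K)) (H88.ideleProj k K q) c) p
  exact h

/-- (D4) on cocycles. -/
theorem H2π_idele_eq_zero [FiniteDimensional k K]
    (hD1 : ∀ q : Nat.Primes, H88.SemiLocalDetectStatement (q : ℕ) k K 2)
    (hD2 : ∀ q : Nat.Primes, H88.UnramifiedUnitsStatement (q : ℕ) k K)
    (hD3 : H88.AlmostAllUnramifiedStatement k K) (c : cocycles₂ (H88.ideleRep k K))
    (hc : ∀ (q : Nat.Primes) (τ : K →+* PadicAlgCl (q : ℕ)),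
      (H88.locCohMap (q : ℕ) k τ 2).hom
        ((groupCohomology.map (MonoidHom.id (K ≃ₐ[k] K)) (H88.ideleProj k K q) 2).hom
          (H2π (H88.ideleRep k K) c)) = 0) :
    H2π (H88.ideleRep k K) c = 0 := by
  classical
  have hfinG : Finite (K ≃ₐ[k] K) := inferInstance
  -- the multiplicative cocycle
  have hcoc : IsMulCocycle₂ (M := H88.ideleGroup K)
      (fun p : (K ≃ₐ[k] K) × (K ≃ₐ[k] K) => Additive.toMul (c.1 p)) :=
    isMulCocycle₂_of_mem_cocycles₂ _ c.2
  have hcomp : ∀ q : Nat.Primes, IsMulCocycle₂ (M := (H88.semiLocal (q : ℕ) K)ˣ)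
      (fun p : (K ≃ₐ[k] K) × (K ≃ₐ[k] K) =>
        H88.ideleComponent K q (Additive.toMul (c.1 p))) := by
    intro q g h j
    have h1 := congrArg (H88.ideleComponent K q) (hcoc g h j)
    rw [map_mul, map_mul] at h1
    exact h1
  -- the components are coboundaries
  have h1 : ∀ q : Nat.Primes, IsMulCoboundary₂ (M := (H88.semiLocal (q : ℕ) K)ˣ)
      (fun p : (K ≃ₐ[k] K) × (K ≃ₐ[k] K) =>
        H88.ideleComponent K q (Additive.toMul (c.1 p))) := by
    intro q
    have h3 := hD1 q _ (hc q)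
    rw [map_ideleProj_H2π] at h3
    have h4 := (H2π_eq_zero_iff_isMulCoboundary₂ (G := K ≃ₐ[k] K)
      (M := (H88.semiLocal (q : ℕ) K)ˣ) _).1 h3
    obtain ⟨b, hb⟩ := h4
    exact ⟨b, fun g h => (hb g h).trans (toMul_mapCocycles₂_ideleProj k K q c (g, h))⟩
  -- the finite set of bad primes
  have hB : ({q : Nat.Primes | ¬ H88.IsUnramifiedAt (q : ℕ) k K} ∪
      ⋃ p : (K ≃ₐ[k] K) × (K ≃ₐ[k] K), {q : Nat.Primes |
        ((Additive.toMul (c.1 p) : H88.ideleGroup K) :
          ∀ q : Nat.Primes, (H88.semiLocal (q : ℕ) K)ˣ) q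
          ∉ H88.semiLocalUnits (q : ℕ) K}).Finite :=
    hD3.union (Set.finite_iUnion fun p => (Additive.toMul (c.1 p) : H88.ideleGroup K).2)
  -- local solutions, unit-valued outside the bad set
  have hloc : ∀ q : Nat.Primes, ∃ b : (K ≃ₐ[k] K) → (H88.semiLocal (q : ℕ) K)ˣ,
      (∀ g h : K ≃ₐ[k] K, g • b h / b (g * h) * b g
        = H88.ideleComponent K q (Additive.toMul (c.1 (g, h)))) ∧
      (q ∉ ({q : Nat.Primes | ¬ H88.IsUnramifiedAt (q : ℕ) k K} ∪
        ⋃ p : (K ≃ₐ[k] K) × (K ≃ₐ[k] K), {q : Nat.Primes |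
          ((Additive.toMul (c.1 p) : H88.ideleGroup K) :
            ∀ q : Nat.Primes, (H88.semiLocal (q : ℕ) K)ˣ) q
            ∉ H88.semiLocalUnits (q : ℕ) K}) →
        ∀ g : K ≃ₐ[k] K, b g ∈ H88.semiLocalUnits (q : ℕ) K) := by
    intro q
    by_cases hq : q ∈ ({q : Nat.Primes | ¬ H88.IsUnramifiedAt (q : ℕ) k K} ∪
        ⋃ p : (K ≃ₐ[k] K) × (K ≃ₐ[k] K), {q : Nat.Primes |
          ((Additive.toMul (c.1 p) : H88.ideleGroup K) :
            ∀ q : Nat.Primes, (H88.semiLocal (q : ℕ) K)ˣ) q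
            ∉ H88.semiLocalUnits (q : ℕ) K})
    · obtain ⟨b, hb⟩ := h1 q
      exact ⟨b, hb, fun h => absurd hq h⟩
    · have hunr : H88.IsUnramifiedAt (q : ℕ) k K := by
        by_contra h
        exact hq (Or.inl h)
      have hunit : ∀ p : (K ≃ₐ[k] K) × (K ≃ₐ[k] K),
          H88.ideleComponent K q (Additive.toMul (c.1 p)) ∈ H88.semiLocalUnits (q : ℕ) K := by
        intro p
        by_contra h
        exact hq (Or.inr (Set.mem_iUnion.2 ⟨p, h⟩))
      have hz := hD2 q hunr 2 (Or.inr rfl)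
      have hg : IsMulCocycle₂ (M := H88.semiLocalUnits (q : ℕ) K)
          (fun p : (K ≃ₐ[k] K) × (K ≃ₐ[k] K) =>
            (⟨H88.ideleComponent K q (Additive.toMul (c.1 p)), hunit p⟩ :
              H88.semiLocalUnits (q : ℕ) K)) :=
        fun g h j => Subtype.ext (hcomp q g h j)
      obtain ⟨u, hu⟩ := isMulCoboundary₂_of_isZero (G := K ≃ₐ[k] K)
        (M := H88.semiLocalUnits (q : ℕ) K) hz _ hg
      exact ⟨fun g => (u g : (H88.semiLocal (q : ℕ) K)ˣ),
        fun g h => congrArg Subtype.val (hu g h), fun _ g => (u g).2⟩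
  choose b hb1 hb2 using hloc
  have hbmem : ∀ g : K ≃ₐ[k] K, (fun q : Nat.Primes => b q g) ∈ H88.ideleGroup K := by
    intro g
    refine hB.subset fun q hq => ?_
    by_contra h
    exact hq (hb2 q h g)
  refine (H2π_eq_zero_iff_isMulCoboundary₂ (G := K ≃ₐ[k] K) (M := H88.ideleGroup K) c).2
    ⟨fun g => ⟨fun q => b q g, hbmem g⟩, fun g h => Subtype.ext (funext fun q => ?_)⟩
  exact hb1 q g h

/-- **Leaf (D4)**: a class of `H²(Gal(K/k), J_K)` all of whose local components vanish is zero,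
from (D1) in degree two, (D2) and (D3). -/
theorem ideleDetectStatement_of [FiniteDimensional k K]
    (hD1 : ∀ q : Nat.Primes, H88.SemiLocalDetectStatement (q : ℕ) k K 2)
    (hD2 : ∀ q : Nat.Primes, H88.UnramifiedUnitsStatement (q : ℕ) k K)
    (hD3 : H88.AlmostAllUnramifiedStatement k K) : H88.IdeleDetectStatement k K := by
  intro x
  refine H2_induction_on x ?_
  intro c hc
  exact H2π_idele_eq_zero k K hD1 hD2 hD3 c hc

end Assembly

end Fermat.Agent.S55.H39
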