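import Mathlib
import Fermat.Agent.S55.H88.SemiLocalSpec

/-!
Program C (S55), package C5, leaf (D5) (helper39): `H¹(Gal(K/k), J_K) = 0`.

* `isZero_H1_iff_forall_isMulCoboundary₁`: vanishing of `H¹` of a multiplicative module in
  cocycle language;
* `isMulCoboundary₁_decomp`, `isZero_H1_locUnitsRep`: Hilbert 90 for the decomposition group
  acting on the units of the completion (Noether's argument, the action being faithful);
* `ideleH1Statement_of`: the leaf (D5) from (D1) in degree one, (D2) and (D3).
-/

set_option autoImplicit false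

open CategoryTheory groupCohomology

noncomputable section

namespace Fermat.Agent.S55.H39

/-- `H¹ = 0` for a multiplicative module, in the language of multiplicative cocycles. -/
theorem isZero_H1_iff_forall_isMulCoboundary₁ {G M : Type} [Group G] [CommGroup M]
    [MulDistribMulAction G M] :
    Limits.IsZero (groupCohomology (Rep.ofMulDistribMulAction G M) 1) ↔
      ∀ f : G → M, IsMulCocycle₁ f → IsMulCoboundary₁ f := by
  constructor
  · intro h f hf
    have hs : Subsingleton (groupCohomology (Rep.ofMulDistribMulAction G M) 1) :=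
      ModuleCat.subsingleton_of_isZero h
    have h0 : H1π (Rep.ofMulDistribMulAction G M) (cocyclesOfIsMulCocycle₁ hf) = 0 :=
      Subsingleton.elim _ _
    rw [H1π_eq_zero_iff] at h0
    exact isMulCoboundary₁_of_mem_coboundaries₁ _ h0
  · intro h
    have hs : Subsingleton (groupCohomology (Rep.ofMulDistribMulAction G M) 1) := by
      refine ⟨fun a b => ?_⟩
      have key : ∀ a : H1 (Rep.ofMulDistribMulAction G M), a = 0 := fun a =>
        H1_induction_on a fun x => (H1π_eq_zero_iff _).2 <| by
          refine (coboundariesOfIsMulCoboundary₁ ?_).2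
          exact h _ (isMulCocycle₁_of_mem_cocycles₁ _ x.2)
      exact (key a).trans (key b).symm
    exact ModuleCat.isZero_of_subsingleton _

section LocalH90

variable (q : ℕ) [Fact q.Prime] (k : Type) {K : Type} [Field k] [Field K] [Algebra k K]

/-- **Hilbert 90 for the decomposition group** (Noether's argument): every multiplicative
1-cocycle of `D_w` with values in `K_wˣ` is a coboundary. -/
theorem isMulCoboundary₁_decomp [FiniteDimensional k K] (τ : K →+* PadicAlgCl q)
    (f : H88.decompGroup q k τ → (H88.locField q τ)ˣ) (hf : IsMulCocycle₁ f) :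
    IsMulCoboundary₁ f := by
  classical
  have : Finite (K ≃ₐ[k] K) := inferInstance
  let _ : Fintype (H88.decompGroup q k τ) := Fintype.ofFinite _
  -- Dedekind: the automorphisms `decompAut σ` are linearly independent
  have hli : LinearIndependent (H88.locField q τ)
      (fun σ : H88.decompGroup q k τ =>
        ((H88.decompAut q k τ σ : H88.locField q τ ≃ₐ[ℚ_[q]] H88.locField q τ) :
          H88.locField q τ → H88.locField q τ)) := by
    refine LinearIndependent.comp (ι' := H88.decompGroup q k τ)
      (linearIndependent_monoidHom (H88.locField q τ) (H88.locField q τ))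
      (fun σ => ((H88.decompAut q k τ σ : H88.locField q τ ≃ₐ[ℚ_[q]] H88.locField q τ) :
        H88.locField q τ →* H88.locField q τ)) ?_
    intro σ ρ h
    refine H88.decompAut_injective q k τ (AlgEquiv.ext fun x => ?_)
    exact DFunLike.congr_fun h x
  -- a point where the Noether sum does not vanish
  obtain ⟨z, hz⟩ : ∃ z : H88.locField q τ,
      ∑ σ : H88.decompGroup q k τ, ((f σ : (H88.locField q τ)ˣ) : H88.locField q τ) *
        H88.decompAut q k τ σ z ≠ 0 := by
    by_contra hall
    push Not at hall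
    have h0 : ∑ σ : H88.decompGroup q k τ,
        ((f σ : (H88.locField q τ)ˣ) : H88.locField q τ) •
          (((H88.decompAut q k τ σ : H88.locField q τ ≃ₐ[ℚ_[q]] H88.locField q τ) :
            H88.locField q τ → H88.locField q τ)) = 0 := by
      funext z
      rw [Finset.sum_apply]
      exact hall z
    exact Units.ne_zero (f 1) (Fintype.linearIndependent_iff.1 hli _ h0 1)
  refine ⟨(Units.mk0 _ hz)⁻¹, fun g => ?_⟩
  -- the sum transforms by the cocycle
  have key : ((f g : (H88.locField q τ)ˣ) : H88.locField q τ) *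
      H88.decompAut q k τ g (∑ σ : H88.decompGroup q k τ,
        ((f σ : (H88.locField q τ)ˣ) : H88.locField q τ) * H88.decompAut q k τ σ z)
      = ∑ σ : H88.decompGroup q k τ,
        ((f σ : (H88.locField q τ)ˣ) : H88.locField q τ) * H88.decompAut q k τ σ z := by
    rw [map_sum, Finset.mul_sum]
    refine (Fintype.sum_bijective (fun σ => g * σ) (Group.mulLeft_bijective g) _ _ ?_)
    intro σ
    have h1 := congrArg (fun u : (H88.locField q τ)ˣ => (u : H88.locField q τ)) (hf g σ)
    simp only [Units.val_mul, H88.coe_smul_locUnits] at h1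
    rw [h1, map_mul, map_mul, AlgEquiv.mul_apply]
    ring
  rw [smul_inv', div_inv_eq_mul, inv_mul_eq_iff_eq_mul, mul_comm]
  refine Units.ext ?_
  rw [Units.val_mul, H88.coe_smul_locUnits, Units.val_mk0]
  exact key.symm

/-- **Hilbert 90 for the decomposition group**, cohomological form. -/
theorem isZero_H1_locUnitsRep [FiniteDimensional k K] (τ : K →+* PadicAlgCl q) :
    Limits.IsZero (groupCohomology (H88.locUnitsRep q k τ) 1) :=
  isZero_H1_iff_forall_isMulCoboundary₁.2 fun f hf => isMulCoboundary₁_decomp q k τ f hf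

end LocalH90

section Assembly

attribute [local instance] H88.factOfPrimes

variable (k K : Type) [Field k] [Field K] [Algebra k K]

/-- Every multiplicative 1-cocycle of `Gal(K/k)` in `(K ⊗ ℚ_q)ˣ` is a coboundary: (D1) in
degree one and Hilbert 90 for the decomposition groups. -/
theorem isMulCoboundary₁_semiLocal [FiniteDimensional k K] (q : ℕ) [Fact q.Prime]
    (hD1 : H88.SemiLocalDetectStatement q k K 1)
    (f : (K ≃ₐ[k] K) → (H88.semiLocal q K)ˣ) (hf : IsMulCocycle₁ f) : IsMulCoboundary₁ f := by
  have hz : Limits.IsZero (groupCohomology (H88.semiLocalRep q k K) 1) := by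
    have hs : Subsingleton (groupCohomology (H88.semiLocalRep q k K) 1) := by
      refine ⟨fun a b => ?_⟩
      have key : ∀ x : groupCohomology (H88.semiLocalRep q k K) 1, x = 0 := fun x =>
        hD1 x fun τ =>
          @Subsingleton.elim _
            (ModuleCat.subsingleton_of_isZero (isZero_H1_locUnitsRep q k τ)) _ _
      exact (key a).trans (key b).symm
    exact ModuleCat.isZero_of_subsingleton _
  exact (isZero_H1_iff_forall_isMulCoboundary₁ (G := K ≃ₐ[k] K)
    (M := (H88.semiLocal q K)ˣ)).1 hz f hf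

/-- **Leaf (D5)**: `H¹(Gal(K/k), J_K) = 0`, from (D1) in degree one, (D2) and (D3). -/
theorem ideleH1Statement_of [FiniteDimensional k K]
    (hD1 : ∀ q : Nat.Primes, H88.SemiLocalDetectStatement (q : ℕ) k K 1)
    (hD2 : ∀ q : Nat.Primes, H88.UnramifiedUnitsStatement (q : ℕ) k K)
    (hD3 : H88.AlmostAllUnramifiedStatement k K) : H88.IdeleH1Statement k K := by
  classical
  have hfinG : Finite (K ≃ₐ[k] K) := inferInstance
  refine (isZero_H1_iff_forall_isMulCoboundary₁ (G := K ≃ₐ[k] K) (M := H88.ideleGroup K)).2 ?_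
  intro f hf
  -- the components of the cocycle
  have hcomp : ∀ q : Nat.Primes,
      IsMulCocycle₁ (fun σ : K ≃ₐ[k] K => H88.ideleComponent K q (f σ)) := by
    intro q σ ρ
    have h := congrArg (H88.ideleComponent K q) (hf σ ρ)
    rw [map_mul] at h
    exact h
  -- the finite set of bad primes
  have hB : ({q : Nat.Primes | ¬ H88.IsUnramifiedAt (q : ℕ) k K} ∪
      ⋃ σ : K ≃ₐ[k] K, {q : Nat.Primes |
        ((f σ : H88.ideleGroup K) : ∀ q : Nat.Primes, (H88.semiLocal (q : ℕ) K)ˣ) q
          ∉ H88.semiLocalUnits (q : ℕ) K}).Finite :=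
    hD3.union (Set.finite_iUnion fun σ => (f σ).2)
  -- local solutions, unit-valued outside the bad set
  have hloc : ∀ q : Nat.Primes, ∃ b : (H88.semiLocal (q : ℕ) K)ˣ,
      (∀ σ : K ≃ₐ[k] K, σ • b / b = H88.ideleComponent K q (f σ)) ∧
      (q ∉ ({q : Nat.Primes | ¬ H88.IsUnramifiedAt (q : ℕ) k K} ∪
        ⋃ σ : K ≃ₐ[k] K, {q : Nat.Primes |
          ((f σ : H88.ideleGroup K) : ∀ q : Nat.Primes, (H88.semiLocal (q : ℕ) K)ˣ) q
            ∉ H88.semiLocalUnits (q : ℕ) K}) → b ∈ H88.semiLocalUnits (q : ℕ) K) := by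
    intro q
    by_cases hq : q ∈ ({q : Nat.Primes | ¬ H88.IsUnramifiedAt (q : ℕ) k K} ∪
        ⋃ σ : K ≃ₐ[k] K, {q : Nat.Primes |
          ((f σ : H88.ideleGroup K) : ∀ q : Nat.Primes, (H88.semiLocal (q : ℕ) K)ˣ) q
            ∉ H88.semiLocalUnits (q : ℕ) K})
    · obtain ⟨b, hb⟩ := isMulCoboundary₁_semiLocal k K (q : ℕ) (hD1 q) _ (hcomp q)
      exact ⟨b, hb, fun h => absurd hq h⟩
    · have hunr : H88.IsUnramifiedAt (q : ℕ) k K := by
        by_contra h
        exact hq (Or.inl h)
      have hunit : ∀ σ : K ≃ₐ[k] K,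
          H88.ideleComponent K q (f σ) ∈ H88.semiLocalUnits (q : ℕ) K := by
        intro σ
        by_contra h
        exact hq (Or.inr (Set.mem_iUnion.2 ⟨σ, h⟩))
      have hz := hD2 q hunr 1 (Or.inl rfl)
      have hg : IsMulCocycle₁ (fun σ : K ≃ₐ[k] K =>
          (⟨H88.ideleComponent K q (f σ), hunit σ⟩ : H88.semiLocalUnits (q : ℕ) K)) :=
        fun σ ρ => Subtype.ext (hcomp q σ ρ)
      obtain ⟨u, hu⟩ := (isZero_H1_iff_forall_isMulCoboundary₁ (G := K ≃ₐ[k] K)
        (M := H88.semiLocalUnits (q : ℕ) K)).1 hz _ hg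
      exact ⟨u, fun σ => congrArg Subtype.val (hu σ), fun _ => u.2⟩
  choose b hb1 hb2 using hloc
  have hbmem : b ∈ H88.ideleGroup K := by
    refine hB.subset fun q hq => ?_
    by_contra h
    exact hq (hb2 q h)
  refine ⟨⟨b, hbmem⟩, fun σ => Subtype.ext (funext fun q => ?_)⟩
  exact hb1 q σ

end Assembly

end Fermat.Agent.S55.H39
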