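import Mathlib
import Fermat.Agent.S55.H39.IdeleH1
import Fermat.Agent.S55.H39.IdeleDetect
import Fermat.Agent.S55.H71.DetectAll
import Fermat.Agent.S55.H31.UnramUnits
import Fermat.Agent.S55.H28.AlmostUnram

/-!
Program C (S55), package C5, Part D (helper39): the idele leaves (D4) and (D5), UNCONDITIONAL
for a finite normal extension `K / k` of number fields — from the landed leaves (D1)
(`H71.semiLocalDetect`), (D2) (`H31.unramifiedUnitsStatement`), (D3)
(`H28.almostAllUnramifiedStatement`) and the assemblies `ideleH1Statement_of`,
`ideleDetectStatement_of`.
-/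

set_option autoImplicit false

noncomputable section

namespace Fermat.Agent.S55.H39

attribute [local instance] H88.factOfPrimes

variable (k K : Type) [Field k] [Field K] [Algebra k K] [NumberField k] [NumberField K]
  [FiniteDimensional k K] [Normal k K]

/-- **C5 leaf (D5)**, unconditional: `H¹(Gal(K/k), J_K) = 0`. -/
theorem ideleH1Statement : H88.IdeleH1Statement k K :=
  ideleH1Statement_of k K (fun q => H71.semiLocalDetect (q : ℕ) k K 1)
    (fun q => H31.unramifiedUnitsStatement (q : ℕ) k K)
    (H28.almostAllUnramifiedStatement k K)

/-- **C5 export (D4)**, unconditional: a class of `H²(Gal(K/k), J_K)` all of whose local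
components vanish is zero. -/
theorem ideleDetectStatement : H88.IdeleDetectStatement k K :=
  ideleDetectStatement_of k K (fun q => H71.semiLocalDetect (q : ℕ) k K 2)
    (fun q => H31.unramifiedUnitsStatement (q : ℕ) k K)
    (H28.almostAllUnramifiedStatement k K)

end Fermat.Agent.S55.H39
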