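/-
Program C (S55), package C3 (local fields in the `PadicAlgCl q` model): ramification index and
residue degree of a finite extension `L/F` of embedded local fields — local fact (RF1) consumed
by `LeafInvRes`.

* `exists_resCard_pow` : `resCard q L = resCard q F ^ f` with `f = [k_L : k_F] > 0`.
* `exists_ram_inertia` : `∃ e f, e f = [L : F]`, `resCard q L = resCard q F ^ f`,
  `unifNrm q F = unifNrm q L ^ e`, `ord_L (a) = e · ord_F (a)` for `a ∈ Fˣ`.

Everything is unconditional (on the landed `H39.fundIdStatement`, `H66.leafOrd`,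
`H66.leafResFinite`).
-/
import Fermat.Agent.S55.H39.FundId
import Fermat.Agent.S55.H66.LocalBridge

set_option autoImplicit false

noncomputable section

namespace Fermat.Agent.S55.H39

open IntermediateField Fermat.Agent.S55.H66 IsLocalRing

variable (q : ℕ) [Fact q.Prime]

/-! ### The residue field extension -/

section Residue

variable (F : Type) [Field F] [Algebra F (PadicAlgCl q)]
variable (L : IntermediateField F (PadicAlgCl q))

/-- The inclusion of valuation rings `𝒪_F → 𝒪_L`. -/
def intRingMap : intRing q F →+* intRing q L where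
  toFun x := ⟨algebraMap F L x, (H66.mem_intRing_iff q L _).mpr
    (by rw [nrm_algebraMap]; exact (H66.mem_intRing_iff q F _).mp x.2)⟩
  map_one' := Subtype.ext (map_one _)
  map_mul' x y := Subtype.ext (map_mul _ _ _)
  map_zero' := Subtype.ext (map_zero _)
  map_add' x y := Subtype.ext (map_add _ _ _)

@[simp] theorem coe_intRingMap (x : intRing q F) :
    ((intRingMap q F L x : intRing q L) : L) = algebraMap F L (x : F) := rfl

instance isLocalHom_intRingMap : IsLocalHom (intRingMap q F L) where
  map_nonunit x hx := by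
    rw [isUnit_intRing_iff] at hx ⊢
    rw [coe_intRingMap, nrm_algebraMap] at hx
    exact hx

/-- The residue field extension `k_F → k_L`. -/
def resFieldMap : ResidueField (intRing q F) →+* ResidueField (intRing q L) :=
  ResidueField.map (intRingMap q F L)

end Residue

section Card

variable (F : Type) [Field F] [Algebra ℚ_[q] F] [Algebra F (PadicAlgCl q)]
  [IsScalarTower ℚ_[q] F (PadicAlgCl q)] [FiniteDimensional ℚ_[q] F]
variable (L : IntermediateField F (PadicAlgCl q)) [FiniteDimensional F L]

/-- The residue field has at least two elements. -/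
theorem two_le_resCard : 2 ≤ resCard q F := by
  haveI := leafResFinite q F
  exact Finite.one_lt_card

/-- `#k_L = #k_F ^ f`, `f = [k_L : k_F] > 0`. -/
theorem exists_resCard_pow : ∃ f : ℕ, 0 < f ∧ resCard q L = resCard q F ^ f := by
  haveI := leafResFinite q F
  haveI := leafResFinite q L
  letI : Algebra (ResidueField (intRing q F)) (ResidueField (intRing q L)) :=
    (resFieldMap q F L).toAlgebra
  haveI : Module.Finite (ResidueField (intRing q F)) (ResidueField (intRing q L)) :=
    Module.Finite.of_finite
  exact ⟨Module.finrank (ResidueField (intRing q F)) (ResidueField (intRing q L)),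
    Module.finrank_pos, Module.natCard_eq_pow_finrank⟩

/-- **(RF1)** Ramification index and residue degree of `L/F`. -/
theorem exists_ram_inertia :
    ∃ e f : ℕ, 0 < e ∧ 0 < f ∧ e * f = Module.finrank F L ∧
      resCard q L = resCard q F ^ f ∧ unifNrm q F = unifNrm q L ^ e ∧
      ∀ a : F, a ≠ 0 → ord q (algebraMap F L a) = e * ord q a := by
  obtain ⟨hF0, hF1, ⟨πF, hπF⟩, hFord⟩ := leafOrd q F
  obtain ⟨hL0, hL1, ⟨πL, hπL⟩, hLord⟩ := leafOrd q L
  have hπF0 : πF ≠ 0 := by
    rintro rfl
    rw [nrm_zero] at hπF
    exact hF0.ne hπF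
  have hπL0 : πL ≠ 0 := by
    rintro rfl
    rw [nrm_zero] at hπL
    exact hL0.ne hπL
  have hFg : ∀ x : F, x ≠ 0 → ∃ n : ℤ, nrm q x = nrm q πF ^ n := fun x hx =>
    ⟨ord q x, by rw [hπF]; exact hFord x hx⟩
  have hLg : ∀ x : L, x ≠ 0 → ∃ n : ℤ, nrm q x = nrm q πL ^ n := fun x hx =>
    ⟨ord q x, by rw [hπL]; exact hLord x hx⟩
  obtain ⟨e, he, hnorm, hcard⟩ := fundIdStatement F L πF πL hπF0 (hπF ▸ hF1) hFg hπL0
    (hπL ▸ hL1) hLg
  obtain ⟨f, hf, hres⟩ := exists_resCard_pow q F L
  have hef : e * f = Module.finrank F L := by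
    have h1 : resCard q F ^ (f * e) = resCard q F ^ Module.finrank F L := by
      rw [pow_mul, ← hres, hcard]
    have h2 := Nat.pow_right_injective (two_le_resCard q F) h1
    rw [mul_comm]
    exact h2
  have hunif : unifNrm q F = unifNrm q L ^ e := by
    rw [← hπF, ← hπL]
    exact hnorm
  refine ⟨e, f, he, hf, hef, hres, hunif, ?_⟩
  intro a ha
  have ha' : algebraMap F L a ≠ 0 := (map_ne_zero_iff _ (algebraMap F L).injective).mpr ha
  have h1 : nrm q (algebraMap F L a) = unifNrm q L ^ ord q (algebraMap F L a) := hLord _ ha'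
  have h2 : nrm q (algebraMap F L a) = unifNrm q L ^ ((e : ℤ) * ord q a) := by
    rw [nrm_algebraMap, hFord a ha, hunif, zpow_mul, zpow_natCast]
  exact zpow_right_injective₀ hL0 hL1.ne (h1.symm.trans h2)

end Card

end Fermat.Agent.S55.H39
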