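import Fermat.Agent.S55.H29.C8Cls
import Fermat.Agent.S55.H70.GSFinal
import Fermat.Agent.S55.H15.CycloQSLayer
import Fermat.Agent.S55.H74.GalLayerC8
import Fermat.Agent.S55.H35.IdeleH3

/-!
Program C (S55), package C8 (B4), the X5 PLUG (helper39): the consumer form
`H70.H3QSStatement p S` of export (B4) from helper29's type-based `H29.H3KillStatement p`
(`C8Cls.lean`) and helper15's cyclic layers of the cyclotomic `ℤ_p`-extension
(`H15.exists_qsLayer_cyclic`).

For `F ⊆ ℚ_S` containing `μ_p`, a layer `L` and a `p`-primary class `x` of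
`H³(Gal(L.K/F), L.Kˣ)`: write `[L.K : F] = p ^ a * m'`, `p ∤ m'`, take a cyclic layer `E` of
degree `p ^ a` and `L' := L ⊔ E`; then `Gal(L'/L) ∩ Gal(L'/E) = 1` and `H3KillStatement` says
that the inflation of `x` to `L'` vanishes.

* `fixSubgroup_eq_fixingSubgroup`, `fixSubgroup_inf_eq_bot` : the Galois-theoretic input;
* `h3QSStatement_of_h3Kill` : `H29.H3KillStatement p → H70.H3QSStatement p S`;
* `ideleH3Statement` : `H29.IdeleH3Statement` (= helper35's `H35.ideleH3`);
* `h3QSStatement_of_lift` : `H29.LiftStatement p → H70.H3QSStatement p S`.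
-/

set_option autoImplicit false
set_option linter.style.haveILetI false

open CategoryTheory groupCohomology

noncomputable section

namespace Fermat.Agent.S55.H39

open Fermat.Agent.S55

local notation "Qb" => AlgebraicClosure ℚ

/-- The subgroup `H88.fixSubgroup` of a sub-layer is the fixing subgroup of the corresponding
intermediate field. -/
theorem fixSubgroup_eq_fixingSubgroup {F : IntermediateField ℚ Qb}
    {K K' : IntermediateField ↥F Qb} (hK : K ≤ K') :
    letI := H74.layerAlgebra F hK
    haveI := H74.layerTower F hK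
    H88.fixSubgroup ↥F ↥K ↥K' = (IntermediateField.restrict hK).fixingSubgroup := by
  letI := H74.layerAlgebra F hK
  haveI := H74.layerTower F hK
  ext σ
  rw [H88.mem_fixSubgroup_iff, IntermediateField.mem_fixingSubgroup_iff]
  constructor
  · intro h x hx
    have hx' : (x : Qb) ∈ K := (IntermediateField.mem_restrict hK x).1 hx
    exact h ⟨(x : Qb), hx'⟩
  · intro h e
    exact h _ ((IntermediateField.mem_restrict hK _).2 e.2)

/-- An automorphism of a layer contained in the compositum `K·E` which fixes `K` and `E` is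
trivial. -/
theorem fixSubgroup_inf_eq_bot {F : IntermediateField ℚ Qb} {K E K' : IntermediateField ↥F Qb}
    (hK : K ≤ K') (hE : E ≤ K') (hsup : K' ≤ K ⊔ E) :
    letI := H74.layerAlgebra F hK
    letI := H74.layerAlgebra F hE
    haveI := H74.layerTower F hK
    haveI := H74.layerTower F hE
    H88.fixSubgroup ↥F ↥K ↥K' ⊓ H88.fixSubgroup ↥F ↥E ↥K' = ⊥ := by
  have htop : IntermediateField.restrict hK ⊔ IntermediateField.restrict hE = ⊤ := by
    apply IntermediateField.lift_injective
    rw [IntermediateField.lift_top]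
    refine le_antisymm (IntermediateField.lift_le _) ?_
    refine hsup.trans (sup_le ?_ ?_)
    · exact (IntermediateField.lift_restrict hK).symm.le.trans
        (IntermediateField.map_mono _ le_sup_left)
    · exact (IntermediateField.lift_restrict hE).symm.le.trans
        (IntermediateField.map_mono _ le_sup_right)
  rw [fixSubgroup_eq_fixingSubgroup hK, fixSubgroup_eq_fixingSubgroup hE,
    ← IntermediateField.fixingSubgroup_sup, htop, IntermediateField.fixingSubgroup_top]

/-- **(X5) / (B4) in consumer form**: `H70.H3QSStatement p S` from the type-based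
`H29.H3KillStatement p` and the cyclic layers of the cyclotomic `ℤ_p`-extension
(`H15.exists_qsLayer_cyclic`). -/
theorem h3QSStatement_of_h3Kill {p : ℕ} [Fact p.Prime] (hp2 : p ≠ 2) {S : Finset Nat.Primes}
    (hpS : ExtCitation.pPrime p ∈ S) (h3 : H29.H3KillStatement p) : H70.H3QSStatement p S := by
  intro F hF hμ L x hx
  have hpr : p.Prime := Fact.out
  haveI := H70.numberField_of_unr hF
  haveI := H70.numberField_layer L
  obtain ⟨a, m', hm', hdeg⟩ := Nat.exists_eq_pow_mul_and_not_dvd
    (Module.finrank_pos (R := ↥F) (M := ↥L.K)).ne' p hpr.ne_one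
  obtain ⟨E, hcyc, hE⟩ := H15.exists_qsLayer_cyclic p hp2 hpS F hF a
  haveI := H70.numberField_layer E
  haveI := H70.numberField_layer (L.sup E)
  have hLL' : L.K ≤ (L.sup E).K := le_sup_left
  have hEL' : E.K ≤ (L.sup E).K := le_sup_right
  refine ⟨L.sup E, hLL', ?_⟩
  letI := H74.layerAlgebra F hLL'
  letI := H74.layerAlgebra F hEL'
  haveI := H74.layerTower F hLL'
  haveI := H74.layerTower F hEL'
  haveI := hcyc
  have hζ : ∃ ζ : ↥F, IsPrimitiveRoot ζ p := by
    haveI : NeZero (p : Qb) := ⟨by exact_mod_cast hpr.ne_zero⟩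
    haveI : NeZero p := ⟨hpr.ne_zero⟩
    obtain ⟨ζ, hζ⟩ := HasEnoughRootsOfUnity.exists_primitiveRoot Qb p
    refine ⟨⟨ζ, hμ ζ hζ.pow_eq_one⟩, ?_⟩
    exact IsPrimitiveRoot.of_map_of_injective (f := algebraMap ↥F Qb)
      (hf := (algebraMap ↥F Qb).injective) hζ
  exact h3 hpr hp2 ↥F ↥L.K ↥E.K ↥(L.sup E).K hζ a m' hm' hdeg hE
    (fixSubgroup_inf_eq_bot hLL' hEL' le_rfl) x hx

/-- **(IDELE-H3)** holds: `H³(Gal(K/k), J_K) = 0` (helper35's `H35.ideleH3`). -/
theorem ideleH3Statement : H29.IdeleH3Statement :=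
  fun k K _ _ _ _ _ _ => H35.ideleH3 k K

/-- **(B4) in consumer form from (LIFT) alone.** -/
theorem h3QSStatement_of_lift {p : ℕ} [Fact p.Prime] (hp2 : p ≠ 2) {S : Finset Nat.Primes}
    (hpS : ExtCitation.pPrime p ∈ S) (hL : H29.LiftStatement p) : H70.H3QSStatement p S :=
  h3QSStatement_of_h3Kill hp2 hpS (H29.h3Kill_of ideleH3Statement hL)

end Fermat.Agent.S55.H39
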