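import Mathlib
import Fermat.Agent.S55.H88.IdeleRep
import Fermat.Agent.S55.H29.C8H3

/-!
Program C (S55), package C8 (B4), input (EX-N) (helper39): for a normal subgroup `N` of
`Gal(K/k)` the sequence `0 → Kˣ → J_K → C_K → 0` stays short exact after taking `N`-invariants
(as representations of `Gal(K/k) ⧸ N`).  This is the hypothesis `hjπN` of `H29.h3_of_lift`.

* `isMulCoboundary₁_subgroup` : Hilbert 90 for a subgroup of `Gal(K/k)` (Noether's argument);
* `ideleShortComplex_invariants_shortExact` : the statement.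
-/

set_option autoImplicit false

open CategoryTheory groupCohomology Rep

noncomputable section

namespace Fermat.Agent.S55.H39

/-- **Hilbert 90 for a subgroup** of the automorphism group of a finite extension (function
form): every 1-cocycle of `N` with values in `Kˣ` is a coboundary. -/
theorem isMulCoboundary₁_subgroup (k K : Type) [Field k] [Field K] [Algebra k K]
    [FiniteDimensional k K] (N : Subgroup (K ≃ₐ[k] K)) (u : N → Kˣ)
    (hu : ∀ n m : N, u (n * m) = (n : K ≃ₐ[k] K) • u m * u n) :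
    ∃ b : Kˣ, ∀ n : N, (n : K ≃ₐ[k] K) • b / b = u n := by
  classical
  have : Finite (K ≃ₐ[k] K) := inferInstance
  let _ : Fintype N := Fintype.ofFinite _
  have hli : LinearIndependent K
      (fun n : N => (((n : K ≃ₐ[k] K) : K ≃ₐ[k] K) : K → K)) := by
    refine LinearIndependent.comp (ι' := N) (linearIndependent_monoidHom K K)
      (fun n => (((n : K ≃ₐ[k] K) : K ≃ₐ[k] K) : K →* K)) ?_
    intro n m h
    refine Subtype.ext (AlgEquiv.ext fun x => ?_)
    exact DFunLike.congr_fun h x
  obtain ⟨z, hz⟩ : ∃ z : K, ∑ m : N, ((u m : Kˣ) : K) * (m : K ≃ₐ[k] K) z ≠ 0 := by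
    by_contra hall
    push Not at hall
    have h0 : ∑ m : N, ((u m : Kˣ) : K) • ((((m : K ≃ₐ[k] K) : K ≃ₐ[k] K) : K → K)) = 0 := by
      funext z
      rw [Finset.sum_apply]
      exact hall z
    exact Units.ne_zero (u 1) (Fintype.linearIndependent_iff.1 hli _ h0 1)
  refine ⟨(Units.mk0 _ hz)⁻¹, fun n => ?_⟩
  have key : ((u n : Kˣ) : K) * (n : K ≃ₐ[k] K) (∑ m : N, ((u m : Kˣ) : K) * (m : K ≃ₐ[k] K) z)
      = ∑ m : N, ((u m : Kˣ) : K) * (m : K ≃ₐ[k] K) z := by
    rw [map_sum, Finset.mul_sum]
    refine (Fintype.sum_bijective (fun m => n * m) (Group.mulLeft_bijective n) _ _ ?_)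
    intro m
    have h1 := congrArg (fun v : Kˣ => (v : K)) (hu n m)
    simp only [Units.val_mul, AlgEquiv.smul_units_def, Units.coe_map, MonoidHom.coe_coe] at h1
    rw [h1, map_mul]
    show _ = _ * (n : K ≃ₐ[k] K) ((m : K ≃ₐ[k] K) z)
    ring
  rw [smul_inv', div_inv_eq_mul, inv_mul_eq_iff_eq_mul, mul_comm]
  refine Units.ext ?_
  rw [Units.val_mul, AlgEquiv.smul_units_def, Units.coe_map, Units.val_mk0]
  exact key.symm

section Invariants

variable (k K : Type) [Field k] [Field K] [Algebra k K] [NumberField K]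

/-- The diagonal map of representations is injective. -/
theorem ideleDiag_hom_injective : Function.Injective (H88.ideleDiag k K).hom := fun a b h =>
  congrArg Additive.ofMul (H88.ideleDiagHom_injective K (congrArg Additive.toMul h))

/-- Exactness of `Kˣ → J_K → C_K` in the middle, elementwise. -/
theorem exists_ideleDiag_eq (x : H88.ideleRep k K) (hx : (H88.ideleClassProj k K).hom x = 0) :
    ∃ y : Rep.ofAlgebraAutOnUnits k K, (H88.ideleDiag k K).hom y = x :=
  (H88.rep_exact_iff (H88.ideleShortComplex k K)).1 (H88.ideleShortComplex_shortExact k K).exact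
    x hx

theorem ideleClassProj_hom_surjective : Function.Surjective (H88.ideleClassProj k K).hom :=
  (Rep.epi_iff_surjective _).1 (H88.ideleShortComplex_shortExact k K).epi_g

theorem ideleClassProj_ideleDiag (y : Rep.ofAlgebraAutOnUnits k K) :
    (H88.ideleClassProj k K).hom ((H88.ideleDiag k K).hom y) = 0 := by
  have h := H88.ideleDiag_comp_ideleClassProj k K
  exact congrArg (fun f => f.hom y) h

/-- **Hilbert 90 for a subgroup, additive form** on the representation `Kˣ`. -/
theorem exists_sub_eq_of_cocycle [FiniteDimensional k K] (N : Subgroup (K ≃ₐ[k] K))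
    (y : N → Rep.ofAlgebraAutOnUnits k K)
    (hy : ∀ n m : N, y (n * m)
      = (Rep.ofAlgebraAutOnUnits k K).ρ (n : K ≃ₐ[k] K) (y m) + y n) :
    ∃ b : Rep.ofAlgebraAutOnUnits k K, ∀ n : N,
      (Rep.ofAlgebraAutOnUnits k K).ρ (n : K ≃ₐ[k] K) b - b = y n := by
  obtain ⟨b, hb⟩ := isMulCoboundary₁_subgroup k K N
    (fun n => (Additive.toMul (α := Kˣ) (y n) : Kˣ)) (fun n m => congrArg Additive.toMul (hy n m))
  exact ⟨Additive.ofMul b, fun n => congrArg Additive.ofMul (hb n)⟩

/-- **(EX-N)**: the sequence `0 → Kˣ → J_K → C_K → 0` stays short exact on the invariants of a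
normal subgroup `N` of `Gal(K/k)`. -/
theorem ideleShortComplex_invariants_shortExact [FiniteDimensional k K]
    (N : Subgroup (K ≃ₐ[k] K)) [N.Normal] :
    ((H88.ideleShortComplex k K).map (quotientToInvariantsFunctor ℤ N)).ShortExact where
  exact := (H88.rep_exact_iff _).2 fun x hx => by
    have h1 : (H88.ideleClassProj k K).hom x.1 = 0 := congrArg Subtype.val hx
    obtain ⟨y, hy⟩ := exists_ideleDiag_eq k K x.1 h1
    have hyN : ∀ n : N, (Rep.ofAlgebraAutOnUnits k K).ρ (n : K ≃ₐ[k] K) y = y := by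
      intro n
      apply ideleDiag_hom_injective k K
      rw [hom_comm_apply (H88.ideleDiag k K) (n : K ≃ₐ[k] K) y, hy]
      exact x.2 n
    exact ⟨⟨y, hyN⟩, Subtype.ext hy⟩
  mono_f := (Rep.mono_iff_injective _).2 fun a b h =>
    Subtype.ext (ideleDiag_hom_injective k K (congrArg Subtype.val h))
  epi_g := (Rep.epi_iff_surjective _).2 fun c => by
    obtain ⟨x, hx⟩ := ideleClassProj_hom_surjective k K c.1
    -- for `n ∈ N` the difference `n x - x` is principal
    have hprin : ∀ n : N, ∃ y : Rep.ofAlgebraAutOnUnits k K,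
        (H88.ideleDiag k K).hom y = (H88.ideleRep k K).ρ (n : K ≃ₐ[k] K) x - x := by
      intro n
      refine exists_ideleDiag_eq k K _ ?_
      rw [map_sub, hom_comm_apply (H88.ideleClassProj k K) (n : K ≃ₐ[k] K) x, hx]
      exact sub_eq_zero.2 (c.2 n)
    choose y hy using hprin
    have hcoc : ∀ n m : N, y (n * m)
        = (Rep.ofAlgebraAutOnUnits k K).ρ (n : K ≃ₐ[k] K) (y m) + y n := by
      intro n m
      apply ideleDiag_hom_injective k K
      rw [map_add, hom_comm_apply (H88.ideleDiag k K) (n : K ≃ₐ[k] K) (y m), hy, hy, hy, map_sub,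
        Subgroup.coe_mul, map_mul, Module.End.mul_apply]
      abel
    obtain ⟨b, hb⟩ := exists_sub_eq_of_cocycle k K N y hcoc
    refine ⟨⟨x - (H88.ideleDiag k K).hom b, fun n => ?_⟩, Subtype.ext ?_⟩
    · show (H88.ideleRep k K).ρ (n : K ≃ₐ[k] K) (x - (H88.ideleDiag k K).hom b)
        = x - (H88.ideleDiag k K).hom b
      rw [map_sub, ← hom_comm_apply (H88.ideleDiag k K) (n : K ≃ₐ[k] K) b, sub_eq_sub_iff_sub_eq_sub,
        ← hy n, ← map_sub, hb n]
    · show (H88.ideleClassProj k K).hom (x - (H88.ideleDiag k K).hom b) = c.1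
      rw [map_sub, ideleClassProj_ideleDiag, sub_zero, hx]

end Invariants

end Fermat.Agent.S55.H39
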