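/-
Program C (S55), package C3 (local fields in the `PadicAlgCl q` model): base change of an
unramified extension — local facts (RF2), (RF3) consumed by `LeafInvRes`.

For `L/F` finite and `U = unramExt q F n`:

* (RF2) `isUnram_sup_unramExt` : `U·L` (as an intermediate field over `L`) is unramified over
  `L`; it is contained in `unramExt q L n` (`sup_unramExt_le`), finite over `L`, and equal to
  `unramExt q L [U·L : L]` given `LeafUnramUnique` (`sup_unramExt_eq`).
* (RF3) `frob_restrict` : a Frobenius of `U·L / L` restricts on `U` to `φ ^ f`, where `φ` is the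
  (unique) Frobenius of `U/F` and `resCard q L = resCard q F ^ f`.
* `nrm_algEquiv` : Galois automorphisms are isometries; `isFrob_pow`.
-/
import Fermat.Agent.S55.H39.RamInertia

set_option autoImplicit false

noncomputable section

namespace Fermat.Agent.S55.H39

open IntermediateField Fermat.Agent.S55.H66 IsLocalRing

variable {q : ℕ} [Fact q.Prime]

/-! ### (RF2) -/

section RF2

theorem isUnram_of_le {F : Type} [Field F] [Algebra F (PadicAlgCl q)]
    {E E' : IntermediateField F (PadicAlgCl q)} (h : E ≤ E') (hE' : IsUnram q F E') :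
    IsUnram q F E :=
  fun x => hE' ⟨x, h x.2⟩

theorem rootsOfUnity_subset (Q n f : ℕ) :
    {ζ : PadicAlgCl q | ζ ^ (Q ^ n - 1) = 1} ⊆ {ζ | ζ ^ ((Q ^ f) ^ n - 1) = 1} := by
  intro ζ hζ
  obtain ⟨k, hk⟩ : Q ^ n - 1 ∣ (Q ^ f) ^ n - 1 := by
    rw [← pow_mul, mul_comm, pow_mul]
    simpa only [one_pow] using Nat.sub_dvd_pow_sub_pow (Q ^ n) 1 f
  show ζ ^ ((Q ^ f) ^ n - 1) = 1
  rw [hk, pow_mul, hζ, one_pow]

variable (F : Type) [Field F] [Algebra ℚ_[q] F] [Algebra F (PadicAlgCl q)]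
  [IsScalarTower ℚ_[q] F (PadicAlgCl q)] [FiniteDimensional ℚ_[q] F]
variable (L : IntermediateField F (PadicAlgCl q)) [FiniteDimensional F L]

/-- `U·L ⊆ unramExt q L n` for `U = unramExt q F n`. -/
theorem sup_unramExt_le (n : ℕ) :
    extendScalars (le_sup_left : L ≤ L ⊔ unramExt q F n) ≤ unramExt q L n := by
  obtain ⟨f, -, hres⟩ := exists_resCard_pow q F L
  rw [extendScalars_sup_unramExt, unramExt, hres]
  exact IntermediateField.adjoin.mono L _ _ (rootsOfUnity_subset _ n f)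

/-- **(RF2)** `U·L` is unramified over `L`. -/
theorem isUnram_sup_unramExt (hUnram : LeafUnram q) (n : ℕ) (hn : 0 < n) :
    IsUnram q L (extendScalars (le_sup_left : L ≤ L ⊔ unramExt q F n)) :=
  isUnram_of_le (sup_unramExt_le F L n) (hUnram L n hn).2.2.2.2

/-- `U·L` is finite over `L`. -/
theorem finiteDimensional_sup_unramExt (hUnram : LeafUnram q) (n : ℕ) (hn : 0 < n) :
    FiniteDimensional L (extendScalars (le_sup_left : L ≤ L ⊔ unramExt q F n)) := by
  haveI := (hUnram L n hn).1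
  exact Module.Finite.of_injective (IntermediateField.inclusion (sup_unramExt_le F L n)).toLinearMap
    (IntermediateField.inclusion_injective (sup_unramExt_le F L n))

/-- `U·L` is the unramified extension of `L` of degree `[U·L : L]`. -/
theorem sup_unramExt_eq (hUnram : LeafUnram q) (hUniq : LeafUnramUnique q) (n : ℕ)
    (hn : 0 < n) :
    extendScalars (le_sup_left : L ≤ L ⊔ unramExt q F n) =
      unramExt q L (Module.finrank L (extendScalars (le_sup_left : L ≤ L ⊔ unramExt q F n))) := by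
  haveI := finiteDimensional_sup_unramExt F L hUnram n hn
  exact hUniq L _ (isUnram_sup_unramExt F L hUnram n hn)

end RF2

/-! ### Isometry and powers of a Frobenius -/

section Frob

variable (F : Type) [Field F] [Algebra ℚ_[q] F] [Algebra F (PadicAlgCl q)]
  [IsScalarTower ℚ_[q] F (PadicAlgCl q)]

/-- Galois automorphisms preserve the norm. -/
theorem nrm_algEquiv (E : IntermediateField F (PadicAlgCl q)) (σ : E ≃ₐ[F] E) (x : E) :
    nrm q (σ x) = nrm q x := by
  rw [nrm_eq_spectralValue, nrm_eq_spectralValue]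
  congr 1
  exact minpoly.algEquiv_eq (σ.restrictScalars ℚ_[q]) x

variable {F}

theorem nrm_sub_lt_one {E : Type} [Field E] [Algebra E (PadicAlgCl q)] {a b c : E}
    (h1 : nrm q (a - b) < 1) (h2 : nrm q (b - c) < 1) : nrm q (a - c) < 1 := by
  have h : a - c = (a - b) + (b - c) := by ring
  rw [h]
  exact lt_of_le_of_lt (nrm_add_le q E _ _) (max_lt h1 h2)

/-- `φ^k x ≡ x ^ (Q^k)` modulo the maximal ideal, for a Frobenius `φ`. -/
theorem isFrob_pow {U : IntermediateField F (PadicAlgCl q)} {φ : U ≃ₐ[F] U}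
    (hφ : IsFrob q U φ) (k : ℕ) (x : U) (hx : nrm q x ≤ 1) :
    nrm q ((φ ^ k) x - x ^ (resCard q F ^ k)) < 1 := by
  induction k with
  | zero =>
    simp only [pow_zero, pow_one, AlgEquiv.one_apply, sub_self]
    rw [nrm_zero]
    exact zero_lt_one
  | succ k ih =>
    have hz : nrm q (x ^ (resCard q F ^ k)) ≤ 1 := by
      rw [nrm_pow]
      exact pow_le_one₀ (norm_nonneg _) hx
    have h1 : nrm q (φ ((φ ^ k) x) - φ (x ^ (resCard q F ^ k))) < 1 := by
      rw [← map_sub, nrm_algEquiv]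
      exact ih
    have h2 : nrm q (φ (x ^ (resCard q F ^ k)) - (x ^ (resCard q F ^ k)) ^ resCard q F) < 1 :=
      hφ _ hz
    have h3 := nrm_sub_lt_one h1 h2
    rw [← pow_mul, ← pow_succ] at h3
    rw [pow_succ' φ k]
    exact h3

/-- **(RF3)** A Frobenius of `U·L / L` restricts on `U` to `φ ^ f`, where `φ` is the unique
Frobenius of `U/F` and `#k_L = #k_F ^ f`. -/
theorem frob_restrict (L U : IntermediateField F (PadicAlgCl q)) [Normal F U]
    (f : ℕ) (hf : resCard q L = resCard q F ^ f)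
    (φ : U ≃ₐ[F] U) (hφ : IsFrob q U φ) (huniq : ∀ φ' : U ≃ₐ[F] U, IsFrob q U φ' → φ' = φ)
    (ψ : extendScalars (le_sup_left : L ≤ L ⊔ U) ≃ₐ[L] extendScalars (le_sup_left : L ≤ L ⊔ U))
    (hψ : IsFrob q (extendScalars (le_sup_left : L ≤ L ⊔ U)) ψ) :
    resHom (le_sup_right : U ≤ L ⊔ U) (upHom (le_sup_left : L ≤ L ⊔ U) ψ) = φ ^ f := by
  set ρ : U ≃ₐ[F] U := resHom (le_sup_right : U ≤ L ⊔ U) (upHom (le_sup_left : L ≤ L ⊔ U) ψ)
    with hρdef
  -- `ρ x ≡ x ^ Q_L`
  have hρ : ∀ x : U, nrm q x ≤ 1 → nrm q (ρ x - x ^ resCard q L) < 1 := by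
    intro x hx
    set y : extendScalars (le_sup_left : L ≤ L ⊔ U) :=
      (upEquiv (le_sup_left : L ≤ L ⊔ U)).symm (inclusion (le_sup_right : U ≤ L ⊔ U) x) with hy
    have hyx : (y : PadicAlgCl q) = (x : PadicAlgCl q) := by
      rw [hy, upEquiv_symm_apply_coe]
      rfl
    have hy1 : nrm q y ≤ 1 := by
      show ‖(y : PadicAlgCl q)‖ ≤ 1
      rw [hyx]
      exact hx
    have h := hψ y hy1
    have hcoe : ((ρ x - x ^ resCard q L : U) : PadicAlgCl q) =
        ((ψ y - y ^ resCard q L : extendScalars (le_sup_left : L ≤ L ⊔ U)) : PadicAlgCl q) := by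
      push_cast
      rw [hρdef, resHom_apply, upHom_apply_coe, hyx]
    show ‖((ρ x - x ^ resCard q L : U) : PadicAlgCl q)‖ < 1
    rw [hcoe]
    exact h
  -- `ρ x ≡ φ^f x`
  have hρφ : ∀ x : U, nrm q x ≤ 1 → nrm q (ρ x - (φ ^ f) x) < 1 := by
    intro x hx
    have h1 := hρ x hx
    have h2 := isFrob_pow hφ f x hx
    rw [← hf] at h2
    have h3 : nrm q (x ^ resCard q L - (φ ^ f) x) < 1 := by
      rw [← neg_sub, nrm_neg]
      exact h2
    exact nrm_sub_lt_one h1 h3
  -- `φ * ((φ^f)⁻¹ * ρ)` is a Frobenius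
  have hfrob : IsFrob q U (φ * ((φ ^ f)⁻¹ * ρ)) := by
    intro x hx
    have hw : nrm q (((φ ^ f)⁻¹ * ρ) x - x) < 1 := by
      have h4 : ((φ ^ f)⁻¹ * ρ) x - x = (φ ^ f)⁻¹ (ρ x - (φ ^ f) x) := by
        rw [map_sub]
        congr 1
        exact ((φ ^ f).symm_apply_apply x).symm
      rw [h4, nrm_algEquiv]
      exact hρφ x hx
    have h5 : nrm q (φ (((φ ^ f)⁻¹ * ρ) x) - φ x) < 1 := by
      rw [← map_sub, nrm_algEquiv]
      exact hw
    exact nrm_sub_lt_one h5 (hφ x hx)
  have h6 := huniq _ hfrob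
  have h7 : (φ ^ f)⁻¹ * ρ = 1 := by
    have := congrArg (fun g => φ⁻¹ * g) h6
    simpa using this
  exact (inv_mul_eq_one.mp h7).symm

end Frob

end Fermat.Agent.S55.H39
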